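import Mathlib
import Fermat.Agent.ES.Mid.Interface2

/-!
# ES / Hecke : the multiplicative Hecke operator `N_ℓ` (package (H) of ES/Mid; sub-lead helper21)

`N_ℓ u (q) = u(q^ℓ) · ∏_{ζ^ℓ = 1} u(ζ q^{1/ℓ})`.

## Series level (any commutative ring `R`)
* `twist ζ x = ∑ a_n ζ^n q^n`  (`ζ : Rˣ`)
* `Uop ℓ x  = ∑ a_{ℓ n} q^n`
* `ModularCurve.qExpand R ℓ x = ∑ a_n q^{ℓ n}`  (prelude; a ring hom)
* `Nm ℓ Z x = Uop ℓ (∏ i, twist (Z i) x)` for a finite family `Z : ι → Rˣ`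
* `Nser ℓ Z x = qExpand R ℓ x * Nm ℓ Z x`
* `NK ℓ K x = Nser ℓ (all ℓ-th roots of unity of the field K) x`

## Function level
* `NF ℓ f z = ∏_{x ∈ ℙ¹(𝔽_ℓ)} f (heckeRep ℓ x • z) = f(ℓ z) ∏_b f((z+b)/ℓ)`
-/

set_option autoImplicit false

namespace Fermat.Agent.ES.Hecke

open UpperHalfPlane CongruenceSubgroup
open scoped MatrixGroups Manifold
open ModularCurve (coeffMap qExpand)
open P2MW.S_ModularForm_heckeT_slash_eq_self_of_mem_Gamma0.ModularForm.HeckeSlashInvariance (heckeRep)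

section Series

variable {R : Type*} [CommRing R]

/-- `∑ a_n q^n ↦ ∑ a_n ζ^n q^n`. -/
noncomputable def twist (ζ : Rˣ) (x : LaurentSeries R) : LaurentSeries R :=
  HahnSeries.ofSuppBddBelow (fun n : ℤ => x.coeff n * ((ζ ^ n : Rˣ) : R))
    ⟨x.order, fun m hm => by
      by_contra h
      exact hm (by
        show x.coeff m * _ = 0
        rw [HahnSeries.coeff_eq_zero_of_lt_order (not_le.mp h), zero_mul])⟩

@[simp] theorem twist_coeff (ζ : Rˣ) (x : LaurentSeries R) (n : ℤ) :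
    (twist ζ x).coeff n = x.coeff n * ((ζ ^ n : Rˣ) : R) := rfl

/-- `∑ a_n q^n ↦ ∑ a_{ℓ n} q^n`. -/
noncomputable def Uop (ℓ : ℕ) [NeZero ℓ] (x : LaurentSeries R) : LaurentSeries R :=
  HahnSeries.ofSuppBddBelow (fun n : ℤ => x.coeff ((ℓ : ℤ) * n))
    ⟨min x.order 0, fun m hm' => by
      by_contra h
      have hm := not_le.mp h
      refine hm' (HahnSeries.coeff_eq_zero_of_lt_order ?_)
      have h1 : m < x.order := lt_of_lt_of_le hm (min_le_left _ _)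
      have h2 : m < 0 := lt_of_lt_of_le hm (min_le_right _ _)
      have h3 : (1 : ℤ) ≤ (ℓ : ℤ) := by exact_mod_cast Nat.pos_of_ne_zero (NeZero.ne ℓ)
      nlinarith⟩

@[simp] theorem Uop_coeff (ℓ : ℕ) [NeZero ℓ] (x : LaurentSeries R) (n : ℤ) :
    (Uop ℓ x).coeff n = x.coeff ((ℓ : ℤ) * n) := rfl

/-- the norm part `∏ x(ζ q^{1/ℓ})`. -/
noncomputable def Nm (ℓ : ℕ) [NeZero ℓ] {ι : Type*} [Fintype ι] (Z : ι → Rˣ)
    (x : LaurentSeries R) : LaurentSeries R :=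
  Uop ℓ (∏ i, twist (Z i) x)

/-- `x(q^ℓ) ∏ x(ζ q^{1/ℓ})`. -/
noncomputable def Nser (ℓ : ℕ) [NeZero ℓ] {ι : Type*} [Fintype ι] (Z : ι → Rˣ)
    (x : LaurentSeries R) : LaurentSeries R :=
  qExpand R ℓ x * Nm ℓ Z x

end Series

noncomputable instance fintypeMu (ℓ : ℕ) [NeZero ℓ] (K : Type*) [Field K] :
    Fintype (rootsOfUnity ℓ K) := Fintype.ofFinite _

/-- the norm part over a field, with all `ℓ`-th roots of unity. -/
noncomputable def NmK (ℓ : ℕ) [NeZero ℓ] (K : Type*) [Field K] (x : LaurentSeries K) :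
    LaurentSeries K :=
  Nm ℓ (fun ζ : rootsOfUnity ℓ K => (ζ : Kˣ)) x

/-- `N_ℓ` on Laurent series over a field. -/
noncomputable def NK (ℓ : ℕ) [NeZero ℓ] (K : Type*) [Field K] (x : LaurentSeries K) :
    LaurentSeries K :=
  Nser ℓ (fun ζ : rootsOfUnity ℓ K => (ζ : Kˣ)) x

theorem NK_eq (ℓ : ℕ) [NeZero ℓ] (K : Type*) [Field K] (x : LaurentSeries K) :
    NK ℓ K x = qExpand K ℓ x * NmK ℓ K x := rfl

/-- `N_ℓ` on functions on the upper half plane. -/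
noncomputable def NF (ℓ : ℕ) [NeZero ℓ] (f : ℍ → ℂ) : ℍ → ℂ :=
  fun z => ∏ x : OnePoint (ZMod ℓ), f (heckeRep ℓ x • z)

/-- the norm part on functions: `∏_{b < ℓ} f((z+b)/ℓ)`. -/
noncomputable def NmF (ℓ : ℕ) (f : ℍ → ℂ) : ℍ → ℂ :=
  fun z => ∏ b ∈ Finset.range ℓ, f (ofComplex (((z : ℂ) + b) / ℓ))

/-- translation `f(z + c)`. -/
noncomputable def transl (c : ℝ) (f : ℍ → ℂ) : ℍ → ℂ := fun z => f (c +ᵥ z)

/-- `e(c) = exp(2 π i c)` as a unit. -/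
noncomputable def eUnit (c : ℝ) : ℂˣ :=
  Units.mk0 (Complex.exp (2 * Real.pi * Complex.I * c)) (Complex.exp_ne_zero _)

end Fermat.Agent.ES.Hecke
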