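import Fermat.Agent.ES.Hecke.Interface

/-!
# ES / Hecke : (SER-SIG) Frobenius lift on `A((q))` and (SER-CST) the constant `κ` (helper19)
-/

set_option autoImplicit false

namespace Fermat.Agent.ES.Hecke.FL

open ModularCurve (coeffMap qExpand)
open Fermat.Agent.S24 (Qbar)
open Fermat.Agent.ES.Mid (GQ)

/-- the ring endomorphism of `A` induced by an element of the decomposition group -/
noncomputable def sigA (A : ValuationSubring Qbar) (σ : GQ) (hσ : σ ∈ A.decompositionSubgroup ℚ) :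
    A →+* A :=
  MulSemiringAction.toRingHom (A.decompositionSubgroup ℚ) A ⟨σ, hσ⟩

theorem sigA_coe (A : ValuationSubring Qbar) (σ : GQ) (hσ : σ ∈ A.decompositionSubgroup ℚ)
    (a : A) : ((sigA A σ hσ a : A) : Qbar) = σ (a : Qbar) := rfl

theorem residue_sigA {ℓ : ℕ} {A : ValuationSubring Qbar} {σ : GQ} (h : A.IsFrobeniusAt σ ℓ)
    (a : A) : IsLocalRing.residue A (sigA A σ h.mem_decompositionSubgroup a) =
      IsLocalRing.residue A a ^ ℓ := by
  have h1 := h.smul_residue_eq (IsLocalRing.residue A a)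
  rw [← IsLocalRing.ResidueField.residue_smul] at h1
  exact h1

theorem frobLift : Stmt_FrobLift := by
  intro ℓ A σ h y
  refine ⟨coeffMap (sigA A σ h.mem_decompositionSubgroup) y, ?_, ?_⟩
  · ext n
    rfl
  · intro n
    exact residue_sigA h (y.coeff n)

/-- an element of `ℚ̄` is a periodic point of every automorphism -/
theorem exists_pow_fix (σ : GQ) (c : Qbar) : ∃ n : ℕ, 0 < n ∧ (σ ^ n) c = c := by
  have hc : IsAlgebraic ℚ c := (AlgebraicClosure.isAlgebraic ℚ).isAlgebraic c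
  have hint : IsIntegral ℚ c := hc.isIntegral
  have hfin : ((minpoly ℚ c).rootSet Qbar).Finite := Polynomial.rootSet_finite _ _
  have hmem : ∀ k : ℕ, (σ ^ k) c ∈ (minpoly ℚ c).rootSet Qbar := by
    intro k
    rw [Polynomial.mem_rootSet]
    refine ⟨minpoly.ne_zero hint, ?_⟩
    rw [Polynomial.aeval_algHom_apply (σ ^ k) c, minpoly.aeval, map_zero]
  have : Finite ((minpoly ℚ c).rootSet Qbar) := hfin
  obtain ⟨i, j, hij, heq⟩ := Finite.exists_ne_map_eq_of_infinite
    (fun k : ℕ => (⟨(σ ^ k) c, hmem k⟩ : (minpoly ℚ c).rootSet Qbar))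
  have heq' : (σ ^ i) c = (σ ^ j) c := congrArg Subtype.val heq
  have key : ∀ i j : ℕ, i < j → (σ ^ i) c = (σ ^ j) c → ∃ n : ℕ, 0 < n ∧ (σ ^ n) c = c := by
    intro i j hlt he
    refine ⟨j - i, Nat.sub_pos_of_lt hlt, ?_⟩
    have h1 : σ ^ j = σ ^ i * σ ^ (j - i) := by
      rw [← pow_add, Nat.add_sub_cancel' hlt.le]
    rw [h1, AlgEquiv.mul_apply] at he
    exact ((σ ^ i).injective he).symm
  rcases lt_or_gt_of_ne hij with hlt | hlt
  · exact key i j hlt heq'
  · exact key j i hlt heq'.symm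

/-- telescoping product -/
theorem prod_quot (σ : GQ) (c : Qbar) (hc : c ≠ 0) (n : ℕ) :
    ∏ k ∈ Finset.range n, (σ ^ k) (σ c / c) = (σ ^ n) c / c := by
  induction n with
  | zero => simp [hc]
  | succ n ih =>
    rw [Finset.prod_range_succ, ih, map_div₀, pow_succ, AlgEquiv.mul_apply]
    have h1 : (σ ^ n) c ≠ 0 := (map_ne_zero (σ ^ n)).2 hc
    field_simp

theorem pow_mem_decomp {A : ValuationSubring Qbar} {σ : GQ}
    (hσ : σ ∈ A.decompositionSubgroup ℚ) (k : ℕ) : σ ^ k ∈ A.decompositionSubgroup ℚ :=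
  Subgroup.pow_mem _ hσ k

theorem map_mem {A : ValuationSubring Qbar} {σ : GQ}
    (hσ : σ ∈ A.decompositionSubgroup ℚ) {a : Qbar} (ha : a ∈ A) : σ a ∈ A :=
  (sigA A σ hσ ⟨a, ha⟩).2

theorem map_mem_nonunits {A : ValuationSubring Qbar} {σ : GQ}
    (hσ : σ ∈ A.decompositionSubgroup ℚ) {a : Qbar} (ha : a ∈ A.nonunits) :
    σ a ∈ A.nonunits := by
  rw [ValuationSubring.mem_nonunits_iff_exists_mem_maximalIdeal] at ha ⊢
  obtain ⟨haA, hm⟩ := ha
  refine ⟨map_mem hσ haA, ?_⟩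
  rw [IsLocalRing.mem_maximalIdeal, mem_nonunits_iff] at hm ⊢
  intro hu
  apply hm
  -- apply `σ⁻¹`
  have hσ' : σ⁻¹ ∈ A.decompositionSubgroup ℚ := Subgroup.inv_mem _ hσ
  have h2 := hu.map (sigA A σ⁻¹ hσ')
  have h3 : sigA A σ⁻¹ hσ' ⟨σ a, map_mem hσ haA⟩ = ⟨a, haA⟩ := by
    apply Subtype.ext
    rw [sigA_coe]
    change σ⁻¹ (σ a) = a
    rw [← AlgEquiv.mul_apply, inv_mul_cancel, AlgEquiv.one_apply]
  rwa [h3] at h2

/-- if `x` is a nonunit, a nonempty product of conjugates of `x` is not `1` -/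
theorem prod_ne_one {A : ValuationSubring Qbar} {σ : GQ}
    (hσ : σ ∈ A.decompositionSubgroup ℚ) {x : Qbar} (hx : x ∈ A.nonunits) (n : ℕ) (hn : 0 < n) :
    ∏ k ∈ Finset.range n, (σ ^ k) x ∈ A.nonunits := by
  induction n with
  | zero => exact absurd hn (lt_irrefl _)
  | succ n ih =>
    rw [Finset.prod_range_succ]
    have h1 : (σ ^ n) x ∈ A.nonunits := map_mem_nonunits (pow_mem_decomp hσ n) hx
    rcases Nat.eq_zero_or_pos n with rfl | hpos
    · simpa using h1
    · exact A.nonunits.mul_mem (ih hpos) h1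

theorem one_not_mem_nonunits (A : ValuationSubring Qbar) : (1 : Qbar) ∉ A.nonunits := by
  rw [ValuationSubring.mem_nonunits_iff]
  simp

theorem quot_mem {A : ValuationSubring Qbar} {σ : GQ}
    (hσ : σ ∈ A.decompositionSubgroup ℚ) {c : Qbar} (hc : c ≠ 0) :
    σ c / c ∈ A ∧ (σ c / c)⁻¹ ∈ A := by
  obtain ⟨n, hn, hfix⟩ := exists_pow_fix σ c
  have hprod : ∏ k ∈ Finset.range n, (σ ^ k) (σ c / c) = 1 := by
    rw [prod_quot σ c hc, hfix, div_self hc]
  have hprod' : ∏ k ∈ Finset.range n, (σ ^ k) (σ c / c)⁻¹ = 1 := by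
    simp only [map_inv₀]
    rw [Finset.prod_inv_distrib, hprod, inv_one]
  constructor
  · by_contra hw
    have h1 : (σ c / c)⁻¹ ∈ A.nonunits := by
      rw [ValuationSubring.mem_nonunits_iff, map_inv₀]
      rw [← ValuationSubring.valuation_le_one_iff, not_le] at hw
      exact inv_lt_one_of_one_lt₀ hw
    have h2 := prod_ne_one hσ h1 n hn
    rw [hprod'] at h2
    exact one_not_mem_nonunits A h2
  · by_contra hw
    have h1 : (σ c / c) ∈ A.nonunits := by
      rw [ValuationSubring.mem_nonunits_iff]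
      rw [← ValuationSubring.valuation_le_one_iff, not_le, map_inv₀] at hw
      by_contra hge
      rw [not_lt] at hge
      exact absurd (inv_le_one_of_one_le₀ hge) (not_le.2 hw)
    have h2 := prod_ne_one hσ h1 n hn
    rw [hprod] at h2
    exact one_not_mem_nonunits A h2

theorem cstES : Stmt_CstES := by
  intro ℓ _ A _ σ h c hc
  have hσ := h.mem_decompositionSubgroup
  obtain ⟨hw, hwi⟩ := quot_mem hσ hc
  have hσc : σ c ≠ 0 := by simpa using hc
  have hσσc : σ (σ c) ≠ 0 := by simpa using hσc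
  refine ⟨sigA A σ hσ ⟨σ c / c, hw⟩ * ⟨(σ c / c)⁻¹, hwi⟩ ^ ℓ, ?_, ?_⟩
  · push_cast
    rw [sigA_coe]
    simp only [map_div₀]
    rw [inv_div, div_pow, pow_succ]
    field_simp
  · rw [map_mul, map_pow, residue_sigA h, ← mul_pow, ← map_mul]
    have h1 : (⟨σ c / c, hw⟩ : A) * ⟨(σ c / c)⁻¹, hwi⟩ = 1 := by
      apply Subtype.ext
      push_cast
      exact mul_inv_cancel₀ (div_ne_zero hσc hc)
    rw [h1, map_one, one_pow]

end Fermat.Agent.ES.Hecke.FL
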