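import Fermat.Agent.ES.Hecke.Interface

/-!
# ES / Hecke : (SER-FROB) `x ^ ℓ = x^{(ℓ)}(q ^ ℓ)` for Laurent series in characteristic `ℓ`
-/

set_option autoImplicit false

namespace Fermat.Agent.ES.Hecke.FS

open ModularCurve (coeffMap qExpand)

/-- coefficients of the `ℓ`-th power of a power series in characteristic `ℓ`. -/
theorem coeff_pow_char {k : Type*} [CommRing k] (ℓ : ℕ) (hℓ : ℓ.Prime) [CharP k ℓ]
    (f : PowerSeries k) (N : ℕ) :
    PowerSeries.coeff N (f ^ ℓ) = if ℓ ∣ N then PowerSeries.coeff (N / ℓ) f ^ ℓ else 0 := by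
  have : Fact ℓ.Prime := ⟨hℓ⟩
  have h : PowerSeries.map (frobenius k ℓ) (PowerSeries.expand ℓ hℓ.ne_zero f) = f ^ ℓ :=
    MvPowerSeries.map_frobenius_expand ℓ hℓ.ne_zero
  rw [← h, PowerSeries.coeff_map, PowerSeries.coeff_expand]
  split_ifs
  · rfl
  · exact map_zero _

theorem frobSeries_charP {k : Type*} [CommRing k] (ℓ : ℕ) [NeZero ℓ] (hℓ : ℓ.Prime) [CharP k ℓ]
    (x x' : LaurentSeries k) (hx : ∀ n, x'.coeff n = x.coeff n ^ ℓ) :
    x ^ ℓ = qExpand k ℓ x' := by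
  have hℓpos : (0 : ℤ) < (ℓ : ℤ) := by exact_mod_cast hℓ.pos
  have e : x ^ ℓ = HahnSeries.single (ℓ • x.order) (1 : k) *
      HahnSeries.ofPowerSeries ℤ k (x.powerSeriesPart ^ ℓ) := by
    conv_lhs => rw [← LaurentSeries.single_order_mul_powerSeriesPart x]
    rw [mul_pow, HahnSeries.single_pow, one_pow, map_pow]
  ext n
  rw [e, HahnSeries.coeff_single_mul, one_mul, PowerSeries.coeff_coe, coeff_pow_char ℓ hℓ]
  by_cases hdvd : (ℓ : ℤ) ∣ n
  · obtain ⟨j, rfl⟩ := hdvd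
    rw [ModularCurve.qExpand_coeff_mul, hx]
    have e1 : (ℓ : ℤ) * j - ℓ • x.order = (ℓ : ℤ) * (j - x.order) := by
      rw [nsmul_eq_mul]; ring
    rw [e1]
    by_cases hj : j < x.order
    · rw [if_pos (mul_neg_of_pos_of_neg hℓpos (sub_neg.mpr hj)),
        HahnSeries.coeff_eq_zero_of_lt_order hj, zero_pow hℓ.ne_zero]
    · obtain ⟨i, hi⟩ := Int.eq_ofNat_of_zero_le (sub_nonneg.mpr (not_lt.mp hj))
      rw [hi, if_neg (not_lt.mpr (by positivity))]
      have e2 : ((ℓ : ℤ) * (i : ℤ)).natAbs = ℓ * i := by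
        rw [← Nat.cast_mul, Int.natAbs_natCast]
      rw [e2, if_pos (dvd_mul_right ℓ i), Nat.mul_div_cancel_left _ hℓ.pos,
        LaurentSeries.powerSeriesPart_coeff, ← hi]
      congr 2
      ring
  · rw [ModularCurve.qExpand_coeff_of_not_dvd ℓ x' hdvd]
    split_ifs with h1 h2
    · rfl
    · exfalso
      apply hdvd
      have h3 : (ℓ : ℤ) ∣ n - ℓ • x.order := Int.natCast_dvd.mpr h2
      have h4 : (ℓ : ℤ) ∣ ℓ • x.order := by
        rw [nsmul_eq_mul]; exact dvd_mul_right _ _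
      have := dvd_add h3 h4
      rwa [sub_add_cancel] at this
    · rfl

theorem frobSeries : Stmt_FrobSeries := by
  intro k _ ℓ _ hℓ h0 x x' hx
  rcases subsingleton_or_nontrivial k with hs | hn
  · ext n
    exact Subsingleton.elim _ _
  · have : CharP k ℓ := (CharP.charP_iff_prime_eq_zero hℓ).mpr h0
    exact frobSeries_charP ℓ hℓ x x' hx

end Fermat.Agent.ES.Hecke.FS

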