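import Fermat.Agent.ES.Hecke.Interface

/-!
# ES / Hecke : glue, all `Stmt_*` imply `Mid.Stmt_Hecke`
-/

set_option autoImplicit false

namespace Fermat.Agent.ES.Hecke.GL

open Fermat.Agent.S24 (Qbar FF)
open Fermat.Agent.ES.Mid (GQ gal)
open Fermat.Agent.ES.Hecke

theorem exists_primitiveRoot_Qbar (ℓ : ℕ) [NeZero ℓ] : ∃ ζ : Qbar, IsPrimitiveRoot ζ ℓ := by
  have : NeZero ((ℓ : ℕ) : Qbar) := ⟨by exact_mod_cast NeZero.ne ℓ⟩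
  exact HasEnoughRootsOfUnity.exists_primitiveRoot Qbar ℓ

theorem stmt_Hecke (hFF : Stmt_NFF) (hKum : Stmt_NKum) (hMap : Stmt_NKMap) (hC3 : Stmt_NCong) :
    Mid.Stmt_Hecke := by
  intro N _ ℓ hℓ
  have : NeZero (ℓ : ℕ) := ⟨ℓ.2.ne_zero⟩
  refine ⟨fun u => ⟨NK ℓ Qbar (u : LaurentSeries Qbar), hFF N ℓ ℓ.2 hℓ u⟩, ?_, ?_, ?_⟩
  · intro m _ u χ h
    exact hKum N ℓ hℓ m u _ χ rfl h
  · intro σ u
    apply Subtype.ext
    rw [Mid.coe_gal]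
    show NK ℓ Qbar ((gal N σ u : FF N) : LaurentSeries Qbar) = _
    rw [Mid.coe_gal]
    exact ((hMap ℓ Qbar Qbar (σ : Qbar →+* Qbar) (exists_primitiveRoot_Qbar ℓ) _).2).symm
  · intro A hA σ hσ u hu
    exact hC3 N ℓ hℓ A hA σ hσ u _ hu rfl

end Fermat.Agent.ES.Hecke.GL
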