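import Fermat.Agent.ES.Hecke.Defs

/-!
# ES / Hecke : interface (statements as Props) of package (H) (sub-lead helper21)

Goal: `Mid.Stmt_Hecke`.  Every package proves `theorem xxx : Stmt_xxx` (possibly from other
`Stmt_`s as explicit hypotheses) in its own NEW file importing this one.
-/

set_option autoImplicit false

namespace Fermat.Agent.ES.Hecke

open UpperHalfPlane CongruenceSubgroup
open scoped MatrixGroups Manifold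
open ModularCurve (coeffMap qExpand)
open Fermat.Agent.S24 (Qbar FF funAlg iota)
open Fermat.Agent.S24.QX (qExpHom cmI Nice qL Rep scale)
open Fermat.Agent.ES.Mid (GQ gal Kum CongOne Growth tau)
attribute [local instance] Fermat.Agent.S24.algQbarComplex

/-! ### series level (pure algebra) -/

/-- (SER-INV) the product over all roots of unity is a series in `q^ℓ`. -/
def Stmt_QExpandNm : Prop :=
  ∀ (ℓ : ℕ) [NeZero ℓ] (K : Type) [Field K], (∃ ζ : K, IsPrimitiveRoot ζ ℓ) →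
    ∀ x : LaurentSeries K,
      qExpand K ℓ (NmK ℓ K x) = ∏ ζ : rootsOfUnity ℓ K, twist (ζ : Kˣ) x

/-- (SER-MUL) `N_ℓ` is multiplicative. -/
def Stmt_NKMul : Prop :=
  ∀ (ℓ : ℕ) [NeZero ℓ] (K : Type) [Field K], (∃ ζ : K, IsPrimitiveRoot ζ ℓ) →
    (∀ x y : LaurentSeries K, NmK ℓ K (x * y) = NmK ℓ K x * NmK ℓ K y) ∧
    (∀ x y : LaurentSeries K, NK ℓ K (x * y) = NK ℓ K x * NK ℓ K y) ∧
    NK ℓ K 1 = 1 ∧
    (∀ c : K, NK ℓ K (HahnSeries.C c) = HahnSeries.C (c ^ (ℓ + 1))) ∧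
    (∀ x : LaurentSeries K, x ≠ 0 → NK ℓ K x ≠ 0)

/-- (SER-NAT) `N_ℓ` commutes with field homomorphisms on the coefficients. -/
def Stmt_NKMap : Prop :=
  ∀ (ℓ : ℕ) [NeZero ℓ] (K L : Type) [Field K] [Field L] (φ : K →+* L),
    (∃ ζ : K, IsPrimitiveRoot ζ ℓ) → ∀ x : LaurentSeries K,
      coeffMap φ (NmK ℓ K x) = NmK ℓ L (coeffMap φ x) ∧
      coeffMap φ (NK ℓ K x) = NK ℓ L (coeffMap φ x)

/-- (SER-FROB) `x^ℓ = x^{(ℓ)}(q^ℓ)` in characteristic `ℓ`. -/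
def Stmt_FrobSeries : Prop :=
  ∀ (k : Type) [CommRing k] (ℓ : ℕ) [NeZero ℓ], ℓ.Prime → (ℓ : k) = 0 →
    ∀ x x' : LaurentSeries k, (∀ n, x'.coeff n = x.coeff n ^ ℓ) → x ^ ℓ = qExpand k ℓ x'

/-- (SER-CONG) integrality of the norm part and its reduction: `Nm(y)(q^ℓ) ≡ y^ℓ`. -/
def Stmt_NmCong : Prop :=
  ∀ (ℓ : ℕ) [NeZero ℓ], ℓ.Prime → ∀ A : ValuationSubring Qbar, A.LiesOverPrime ℓ →
    ∀ y : LaurentSeries A, ∃ y' : LaurentSeries A,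
      coeffMap A.subtype y' = NmK ℓ Qbar (coeffMap A.subtype y) ∧
      qExpand (IsLocalRing.ResidueField A) ℓ (coeffMap (IsLocalRing.residue A) y')
        = coeffMap (IsLocalRing.residue A) y ^ ℓ

/-- (SER-SIG) a Frobenius lift acts on `A((q))` and induces `a ↦ a^ℓ` on the reductions. -/
def Stmt_FrobLift : Prop :=
  ∀ (ℓ : ℕ) (A : ValuationSubring Qbar) (σ : GQ), A.IsFrobeniusAt σ ℓ →
    ∀ y : LaurentSeries A, ∃ y' : LaurentSeries A,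
      coeffMap A.subtype y' = coeffMap (σ : Qbar →+* Qbar) (coeffMap A.subtype y) ∧
      ∀ n, (coeffMap (IsLocalRing.residue A) y').coeff n
        = (coeffMap (IsLocalRing.residue A) y).coeff n ^ ℓ

/-- (SER-ES) the Eichler-Shimura congruence for integral series:
`N_ℓ(σ y) ≡ σ²(y) · y^ℓ`. -/
def Stmt_SerES : Prop :=
  ∀ (ℓ : ℕ) [NeZero ℓ], ℓ.Prime → ∀ A : ValuationSubring Qbar, A.LiesOverPrime ℓ →
    ∀ σ : GQ, A.IsFrobeniusAt σ ℓ → ∀ y : LaurentSeries A, ∃ n s : LaurentSeries A,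
      coeffMap A.subtype n
        = NK ℓ Qbar (coeffMap (σ : Qbar →+* Qbar) (coeffMap A.subtype y)) ∧
      coeffMap A.subtype s
        = coeffMap (σ : Qbar →+* Qbar) (coeffMap (σ : Qbar →+* Qbar) (coeffMap A.subtype y)) ∧
      coeffMap (IsLocalRing.residue A) n
        = coeffMap (IsLocalRing.residue A) s * coeffMap (IsLocalRing.residue A) y ^ ℓ ∧
      (coeffMap (IsLocalRing.residue A) y ≠ 0 → coeffMap (IsLocalRing.residue A) s ≠ 0)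

/-- (SER-CST) the constant `σ²(c) c^ℓ / σ(c)^{ℓ+1}` is a unit of `A` congruent to `1`. -/
def Stmt_CstES : Prop :=
  ∀ (ℓ : ℕ), ℓ.Prime → ∀ A : ValuationSubring Qbar, A.LiesOverPrime ℓ →
    ∀ σ : GQ, A.IsFrobeniusAt σ ℓ → ∀ c : Qbar, c ≠ 0 →
      ∃ κ : A, (κ : Qbar) * σ c ^ (ℓ + 1) = σ (σ c) * c ^ ℓ ∧ IsLocalRing.residue A κ = 1

/-! ### function level (analysis) -/

/-- (AN-TR) translation of a nice function. -/
def Stmt_QLTransl : Prop :=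
  ∀ (F : ℍ → ℂ) (c : ℝ), Nice F →
    Nice (transl c F) ∧ qL (transl c F) = twist (eUnit c) (qL F)

/-- (AN-NM) the norm part of a nice function. -/
def Stmt_QLNmF : Prop :=
  ∀ (ℓ : ℕ) [NeZero ℓ] (F : ℍ → ℂ), Nice F →
    Nice (NmF ℓ F) ∧ qL (NmF ℓ F) = NmK ℓ ℂ (qL F)

/-- (AN-FORM) explicit form of `NF`. -/
def Stmt_NFForm : Prop :=
  ∀ (ℓ : ℕ) [NeZero ℓ] (f : ℍ → ℂ), NF ℓ f = scale ℓ f * NmF ℓ f

/-- (AN-REP) the `q`-expansion of `NF ℓ f`. -/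
def Stmt_RepNF : Prop :=
  ∀ (ℓ : ℕ) [NeZero ℓ] (X : LaurentSeries ℂ) (f : ℍ → ℂ), Rep X f → Rep (NK ℓ ℂ X) (NF ℓ f)

/-- (AN-MD) holomorphy and nonvanishing. -/
def Stmt_NFMDiff : Prop :=
  ∀ (ℓ : ℕ) [NeZero ℓ] (f : ℍ → ℂ), MDiff f → MDiff (NF ℓ f) ∧ (f ≠ 0 → NF ℓ f ≠ 0)

/-- (AN-CHAR) transformation behaviour of `NF` (contains the invariance: `a = f`, `b = 1`,
`χ = 0`). -/
def Stmt_NFChar : Prop :=
  ∀ (N : ℕ) [NeZero N] (ℓ : Nat.Primes) [NeZero (ℓ : ℕ)], ¬ (ℓ : ℕ) ∣ N →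
    ∀ (m : ℕ) [NeZero m] (χ : Additive (Gamma0 N) →+ ZMod m) (a b : ℍ → ℂ),
      (∀ (γ : Gamma0 N) (z : ℍ), a ((γ : SL(2, ℤ)) • z) * b z =
        ZMod.stdAddChar (χ (Additive.ofMul γ)) * (a z * b ((γ : SL(2, ℤ)) • z))) →
      ∀ (γ : Gamma0 N) (z : ℍ), NF ℓ a ((γ : SL(2, ℤ)) • z) * NF ℓ b z =
        ZMod.stdAddChar (tau N ℓ (ZMod m) χ (Additive.ofMul γ)) *
          (NF ℓ a z * NF ℓ b ((γ : SL(2, ℤ)) • z))

/-- (AN-GR) moderate growth at all cusps. -/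
def Stmt_NFGrowth : Prop :=
  ∀ (N : ℕ) [NeZero N] (ℓ : ℕ) [NeZero ℓ], ℓ.Prime → ¬ ℓ ∣ N →
    ∀ θ : funAlg N, Growth (NF ℓ (θ : ℍ → ℂ))

/-! ### assembly -/

/-- (HK-MEM) `N_ℓ` of an element of `ℚ̄[j_d]` lies in `F_N`, compatibly on functions. -/
def Stmt_NMem : Prop :=
  ∀ (N : ℕ) [NeZero N] (ℓ : ℕ) [NeZero ℓ], ℓ.Prime → ¬ ℓ ∣ N → ∀ θ : funAlg N,
    ∃ θ₁ θ₂ : funAlg N, θ₂ ≠ 0 ∧
      (∀ z, NF ℓ (θ : ℍ → ℂ) z * (θ₂ : ℍ → ℂ) z = (θ₁ : ℍ → ℂ) z) ∧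
      NK ℓ Qbar (qExpHom N θ : LaurentSeries Qbar) * (qExpHom N θ₂ : LaurentSeries Qbar)
        = (qExpHom N θ₁ : LaurentSeries Qbar)

/-- (HK-FF) `N_ℓ` preserves `F_N`. -/
def Stmt_NFF : Prop :=
  ∀ (N : ℕ) [NeZero N] (ℓ : ℕ) [NeZero ℓ], ℓ.Prime → ¬ ℓ ∣ N → ∀ u : FF N,
    NK ℓ Qbar (u : LaurentSeries Qbar) ∈ ModularCurve.modularFunctionFieldBar N

/-- (HK-KUM) clause 1 of `Mid.Stmt_Hecke`. -/
def Stmt_NKum : Prop :=
  ∀ (N : ℕ) [NeZero N] (ℓ : Nat.Primes) [NeZero (ℓ : ℕ)], ¬ (ℓ : ℕ) ∣ N →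
    ∀ (m : ℕ) [NeZero m] (u v : FF N) (χ : Additive (Gamma0 N) →+ ZMod m),
      (v : LaurentSeries Qbar) = NK ℓ Qbar (u : LaurentSeries Qbar) →
      Kum N m u χ → Kum N m v (tau N ℓ (ZMod m) χ)

/-- the corrected form of `Mid.Stmt_IntRep` (helper86, report #837): `u = c y₁ / y₂`. -/
def Stmt_IntRepC : Prop :=
  ∀ (N : ℕ) [NeZero N] (A : ValuationSubring Qbar),
    ∀ u : FF N, u ≠ 0 → ∃ (c : Qbar) (y₁ y₂ : LaurentSeries A) (θ₁ θ₂ : funAlg N), c ≠ 0 ∧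
      coeffMap A.subtype y₁ = (qExpHom N θ₁ : LaurentSeries Qbar) ∧
      coeffMap A.subtype y₂ = (qExpHom N θ₂ : LaurentSeries Qbar) ∧
      u * qExpHom N θ₂ = algebraMap Qbar (FF N) c * qExpHom N θ₁ ∧
      coeffMap (IsLocalRing.residue A) y₁ ≠ 0 ∧
      coeffMap (IsLocalRing.residue A) y₂ ≠ 0

/-- (HK-C3) clause 3 of `Mid.Stmt_Hecke`. -/
def Stmt_NCong : Prop :=
  ∀ (N : ℕ) [NeZero N] (ℓ : Nat.Primes) [NeZero (ℓ : ℕ)], ¬ (ℓ : ℕ) ∣ N →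
    ∀ A : ValuationSubring Qbar, A.LiesOverPrime ℓ → ∀ σ : GQ, A.IsFrobeniusAt σ ℓ →
      ∀ u v : FF N, u ≠ 0 →
        (v : LaurentSeries Qbar) = NK ℓ Qbar ((gal N σ u : FF N) : LaurentSeries Qbar) →
        CongOne N A (gal N σ (gal N σ u) * u ^ (ℓ : ℕ) * v⁻¹)

end Fermat.Agent.ES.Hecke
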