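import Fermat.Agent.ES.Hecke.Interface

/-!
# ES / Hecke, package HK-CHAR : transformation of `NF ℓ` under `Γ₀(N)`
-/

set_option autoImplicit false

namespace Fermat.Agent.ES.Hecke

open UpperHalfPlane CongruenceSubgroup
open scoped MatrixGroups Manifold
open P2MW.S_ModularForm_heckeT_slash_eq_self_of_mem_Gamma0.ModularForm.HeckeSlashInvariance (heckeRep)
open Fermat.Agent.S16.HH

namespace CH

/-- multiplicative version of `HeckeData.op_of_primitive`. -/
theorem prod_char {G Γ : Type*} [Group G] [Group Γ] {j : Γ →* G} {ι : Type*} [Fintype ι]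
    (D : HeckeData j ι) {Z : Type*} [MulAction G Z] (e : Γ → ℂ) (a b : Z → ℂ)
    (h : ∀ (γ : Γ) (z : Z), a (j γ • z) * b z = e γ * (a z * b (j γ • z))) (γ : Γ) (z : Z) :
    (∏ i, a (D.α i • j γ • z)) * ∏ i, b (D.α i • z) =
      (∏ i, e (D.g γ i)) * ((∏ i, a (D.α i • z)) * ∏ i, b (D.α i • j γ • z)) := by
  have h1 : ∀ i, D.α i • j γ • z = j (D.g γ i) • D.α (D.σ γ i) • z := by
    intro i
    rw [← mul_smul, D.hmul, mul_smul]
  have hb : ∏ i, b (D.α i • z) = ∏ i, b (D.α (D.σ γ i) • z) :=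
    (Equiv.prod_comp (D.perm γ) fun i => b (D.α i • z)).symm
  have ha : ∏ i, a (D.α i • z) = ∏ i, a (D.α (D.σ γ i) • z) :=
    (Equiv.prod_comp (D.perm γ) fun i => a (D.α i • z)).symm
  rw [hb, ha]
  simp only [h1]
  rw [← Finset.prod_mul_distrib, ← Finset.prod_mul_distrib, ← Finset.prod_mul_distrib]
  exact Finset.prod_congr rfl fun i _ => h _ _

theorem addChar_sum {A M ι : Type*} [AddCommMonoid A] [CommMonoid M] (ψ : AddChar A M)
    (s : Finset ι) (f : ι → A) : ψ (∑ i ∈ s, f i) = ∏ i ∈ s, ψ (f i) := by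
  classical
  induction s using Finset.induction_on with
  | empty => simp
  | insert a s ha ih => rw [Finset.sum_insert ha, Finset.prod_insert ha, AddChar.map_add_eq_mul, ih]

end CH

theorem nfChar : Stmt_NFChar := by
  intro N _ ℓ _ hℓN m _ χ a b h γ z
  have htau : Fermat.Agent.ES.Mid.tau N ℓ (ZMod m) χ (Additive.ofMul γ)
      = ∑ i, χ (Additive.ofMul ((dataT N ℓ.2 hℓN).g γ i)) := by
    show Fermat.Agent.S16.HH.tau N ℓ (ZMod m) χ (Additive.ofMul γ) = _
    unfold Fermat.Agent.S16.HH.tau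
    rw [dif_neg hℓN]
    rfl
  rw [htau, CH.addChar_sum]
  exact CH.prod_char (dataT N ℓ.2 hℓN) (fun γ => ZMod.stdAddChar (χ (Additive.ofMul γ))) a b
    (fun γ z => h γ z) γ z

end Fermat.Agent.ES.Hecke
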