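import Fermat.Agent.ES.Hecke.Interface
import Fermat.Agent.S24.FunAlgCusp

/-!
# ES / Hecke : (AN-GR) moderate growth of `NF ℓ θ` at all cusps (helper17)
-/

set_option autoImplicit false

namespace Fermat.Agent.ES.Hecke.GR

open UpperHalfPlane CongruenceSubgroup ModularForm Filter
open scoped MatrixGroups Manifold
open Fermat.Agent.S24 (Qbar funAlg jFun jFunD jFunD_growth discriminant_pow_bdd)
open Fermat.Agent.ES.Mid (Growth)
open P2MW.S_ModularForm_heckeT_slash_eq_self_of_mem_Gamma0.ModularForm.HeckeSlashInvariance (heckeRep)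
attribute [local instance] Fermat.Agent.S24.algQbarComplex

/-! ### closure properties of `Growth` -/

theorem growth_const (c : ℂ) : Growth (fun _ => c) := by
  intro g
  refine ⟨0, ?_⟩
  simp only [pow_zero, mul_one]
  exact Filter.const_boundedAtFilter atImInfty c

theorem growth_add {f₁ f₂ : ℍ → ℂ} (h₁ : Growth f₁) (h₂ : Growth f₂) :
    Growth (fun z => f₁ z + f₂ z) := by
  intro g
  obtain ⟨m₁, h₁⟩ := h₁ g
  obtain ⟨m₂, h₂⟩ := h₂ g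
  refine ⟨m₁ + m₂, ?_⟩
  have := (h₁.mul (discriminant_pow_bdd m₂)).add (h₂.mul (discriminant_pow_bdd m₁))
  refine this.congr' ?_ EventuallyEq.rfl
  filter_upwards with τ
  simp only [Pi.add_apply, Pi.mul_apply, pow_add]
  ring

theorem growth_mul {f₁ f₂ : ℍ → ℂ} (h₁ : Growth f₁) (h₂ : Growth f₂) :
    Growth (fun z => f₁ z * f₂ z) := by
  intro g
  obtain ⟨m₁, h₁⟩ := h₁ g
  obtain ⟨m₂, h₂⟩ := h₂ g
  refine ⟨m₁ + m₂, ?_⟩
  have := h₁.mul h₂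
  refine this.congr' ?_ EventuallyEq.rfl
  filter_upwards with τ
  simp only [Pi.mul_apply, pow_add]
  ring

theorem growth_prod {ι : Type*} (s : Finset ι) (f : ι → ℍ → ℂ) (h : ∀ i ∈ s, Growth (f i)) :
    Growth (fun z => ∏ i ∈ s, f i z) := by
  classical
  induction s using Finset.induction_on with
  | empty => simpa using growth_const 1
  | insert a s ha ih =>
    simp only [Finset.prod_insert ha]
    exact growth_mul (h a (Finset.mem_insert_self a s))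
      (ih fun i hi => h i (Finset.mem_insert_of_mem hi))

/-! ### the generators -/

theorem jFunD_heckeDiag (d : ℕ) {ℓ : ℕ} (hℓ : ℓ ≠ 0) (z : ℍ) :
    jFunD d (heckeDiagMatrix ℓ • z) = jFunD (d * ℓ) z := by
  unfold jFunD
  rw [coe_heckeDiagMatrix_smul hℓ]
  push_cast
  rw [mul_assoc]

theorem jFunD_heckeMatrix {d ℓ : ℕ} (b : ℕ) (hd : 0 < d) (hℓ : 0 < ℓ) (hcop : Nat.Coprime ℓ d) :
    ∃ g₂ : SL(2, ℤ), ∀ z : ℍ, jFunD d (heckeMatrix ℓ b • z) = jFunD (d * ℓ) (g₂ • z) := by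
  have h1 : IsCoprime ((ℓ : ℤ) + d * b) (d : ℤ) :=
    (Nat.isCoprime_iff_coprime.2 hcop).add_mul_left_left _
  obtain ⟨p, v, hpv⟩ := h1
  set q : ℤ := -v with hq
  have hdet : p * ((ℓ : ℤ) + d * b) - q * d = 1 := by rw [hq]; linarith
  let g₂ : SL(2, ℤ) := ⟨!![p, q; (d : ℤ), (ℓ : ℤ) + d * b], by
    rw [Matrix.det_fin_two_of]; linarith⟩
  let g₁ : SL(2, ℤ) := ⟨!![1, (d : ℤ) * (b * p - q); -1, (ℓ : ℤ) * p], by
    rw [Matrix.det_fin_two_of]; linarith⟩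
  refine ⟨g₂, fun z => ?_⟩
  have hdC : (d : ℂ) ≠ 0 := by exact_mod_cast hd.ne'
  have hℓC : (ℓ : ℂ) ≠ 0 := by exact_mod_cast hℓ.ne'
  have hdetC : (p : ℂ) * ((ℓ : ℂ) + d * b) - (q : ℂ) * d = 1 := by exact_mod_cast hdet
  -- the point `W = d ℓ (g₂ z)`
  have him : 0 < (((d * ℓ : ℕ) : ℂ) * ((g₂ • z : ℍ) : ℂ)).im := by
    have : (((d * ℓ : ℕ) : ℂ) * ((g₂ • z : ℍ) : ℂ)).im = ((d * ℓ : ℕ) : ℝ) * (g₂ • z : ℍ).im := by
      simp
    rw [this]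
    have h2 : (0 : ℝ) < ((d * ℓ : ℕ) : ℝ) := by exact_mod_cast Nat.mul_pos hd hℓ
    exact mul_pos h2 (g₂ • z : ℍ).im_pos
  set W : ℍ := ⟨((d * ℓ : ℕ) : ℂ) * ((g₂ • z : ℍ) : ℂ), him⟩ with hW
  have hWc : (W : ℂ) = ((d * ℓ : ℕ) : ℂ) * ((g₂ • z : ℍ) : ℂ) := rfl
  have e1 : jFunD (d * ℓ) (g₂ • z) = jFun W := by
    unfold jFunD
    rw [ofComplex_apply_of_im_pos him]
  have e2 : (d : ℂ) * ((heckeMatrix ℓ b • z : ℍ) : ℂ) = ((g₁ • W : ℍ) : ℂ) := by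
    rw [coe_heckeMatrix_smul hℓ.ne', S24.Hermite.coe_smul_eq g₁ W]
    have hd1 := S24.Hermite.denom_ne g₁ W
    have hd2 := S24.Hermite.denom_ne g₂ z
    rw [hWc, S24.Hermite.coe_smul_eq g₂ z] at hd1 ⊢
    have a00 : ((g₁ 0 0 : ℤ) : ℂ) = 1 := by simp [g₁]
    have a01 : ((g₁ 0 1 : ℤ) : ℂ) = (d : ℂ) * (b * p - q) := by simp [g₁]
    have a10 : ((g₁ 1 0 : ℤ) : ℂ) = -1 := by simp [g₁]
    have a11 : ((g₁ 1 1 : ℤ) : ℂ) = (ℓ : ℂ) * p := by simp [g₁]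
    have b00 : ((g₂ 0 0 : ℤ) : ℂ) = p := by simp [g₂]
    have b01 : ((g₂ 0 1 : ℤ) : ℂ) = q := by simp [g₂]
    have b10 : ((g₂ 1 0 : ℤ) : ℂ) = d := by simp [g₂]
    have b11 : ((g₂ 1 1 : ℤ) : ℂ) = (ℓ : ℂ) + d * b := by simp [g₂]
    rw [a10, a11, b00, b01, b10, b11] at hd1
    rw [a00, a01, a10, a11, b00, b01, b10, b11]
    rw [b10, b11] at hd2
    rw [eq_div_iff hd1]
    push_cast
    field_simp
    ring
  unfold jFunD at e1 ⊢
  rw [e1, e2, ofComplex_apply, S24.Hermite.jFun_smul']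

theorem growth_jFunD {d : ℕ} (hd : 0 < d) : Growth (jFunD d) := fun g => ⟨d, jFunD_growth hd g⟩

theorem growth_comp_smul {f : ℍ → ℂ} (h : Growth f) (g₂ : SL(2, ℤ)) :
    Growth (fun z => f (g₂ • z)) := by
  intro g
  obtain ⟨k, hk⟩ := h (g₂ * g)
  refine ⟨k, ?_⟩
  simpa only [mul_smul] using hk

theorem growth_jFunD_heckeRep {d ℓ : ℕ} [NeZero ℓ] (hd : 0 < d) (hcop : Nat.Coprime ℓ d)
    (x : OnePoint (ZMod ℓ)) : Growth (fun z => jFunD d (heckeRep ℓ x • z)) := by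
  have hℓ : 0 < ℓ := Nat.pos_of_ne_zero (NeZero.ne ℓ)
  induction x using OnePoint.rec with
  | infty =>
    have e : (fun z : ℍ => jFunD d (heckeRep ℓ OnePoint.infty • z)) = jFunD (d * ℓ) := by
      funext z
      exact jFunD_heckeDiag d hℓ.ne' z
    rw [e]
    exact growth_jFunD (Nat.mul_pos hd hℓ)
  | coe j =>
    obtain ⟨g₂, hg₂⟩ := jFunD_heckeMatrix j.val hd hℓ hcop
    have e : (fun z : ℍ => jFunD d (heckeRep ℓ (j : OnePoint (ZMod ℓ)) • z)) =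
        fun z => jFunD (d * ℓ) (g₂ • z) := by
      funext z
      exact hg₂ z
    rw [e]
    exact growth_comp_smul (growth_jFunD (Nat.mul_pos hd hℓ)) g₂

theorem growth_funAlg_heckeRep {N ℓ : ℕ} [NeZero N] [NeZero ℓ] (hℓ : ℓ.Prime) (hℓN : ¬ ℓ ∣ N)
    {θ : ℍ → ℂ} (hθ : θ ∈ funAlg N) (x : OnePoint (ZMod ℓ)) :
    Growth (fun z => θ (heckeRep ℓ x • z)) := by
  induction hθ using Algebra.adjoin_induction with
  | mem f hf =>
    obtain ⟨d, hd, rfl⟩ := hf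
    have hd0 : 0 < d := Nat.pos_of_dvd_of_pos hd (Nat.pos_of_ne_zero (NeZero.ne N))
    have hcop : Nat.Coprime ℓ d :=
      (Nat.Prime.coprime_iff_not_dvd hℓ).2 fun h => hℓN (h.trans hd)
    exact growth_jFunD_heckeRep hd0 hcop x
  | algebraMap r => exact growth_const (algebraMap Qbar ℂ r)
  | add f₁ f₂ _ _ h₁ h₂ => exact growth_add h₁ h₂
  | mul f₁ f₂ _ _ h₁ h₂ => exact growth_mul h₁ h₂

theorem nfGrowth : Stmt_NFGrowth := by
  intro N _ ℓ _ hℓ hℓN θ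
  exact growth_prod Finset.univ (fun x z => (θ : ℍ → ℂ) (heckeRep ℓ x • z))
    fun x _ => growth_funAlg_heckeRep hℓ hℓN θ.2 x

end Fermat.Agent.ES.Hecke.GR
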