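import Fermat.Agent.ES.Hecke.Interface

/-!
# ES / Hecke : (AN-MD) holomorphy and nonvanishing of `NF ℓ f`
-/

set_option autoImplicit false

namespace Fermat.Agent.ES.Hecke.MD

open UpperHalfPlane CongruenceSubgroup
open scoped MatrixGroups Manifold
open P2MW.S_ModularForm_heckeT_slash_eq_self_of_mem_Gamma0.ModularForm.HeckeSlashInvariance (heckeRep)

theorem det_heckeRep_pos (ℓ : ℕ) (x : OnePoint (ZMod ℓ)) : 0 < ((heckeRep ℓ x).det : ℝ) := by
  induction x using OnePoint.rec with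
  | infty => exact ModularForm.det_heckeDiagMatrix_pos ℓ
  | coe j => exact ModularForm.det_heckeMatrix_pos ℓ j.val

theorem NF_eq_prod (ℓ : ℕ) [NeZero ℓ] (f : ℍ → ℂ) :
    NF ℓ f = ∏ x : OnePoint (ZMod ℓ), fun z : ℍ => f (heckeRep ℓ x • z) := by
  funext z
  rw [Finset.prod_apply]
  rfl

theorem mdiff_comp_smul {f : ℍ → ℂ} (hf : MDiff f) {g : GL (Fin 2) ℝ} (hg : 0 < (g.det : ℝ)) :
    MDiff (fun z : ℍ => f (g • z)) :=
  hf.comp (mdifferentiable_smul hg)

theorem nfMDiff : Stmt_NFMDiff := by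
  intro ℓ _ f hf
  have hfac : ∀ x ∈ (Finset.univ : Finset (OnePoint (ZMod ℓ))),
      MDiff (fun z : ℍ => f (heckeRep ℓ x • z)) :=
    fun x _ => mdiff_comp_smul hf (det_heckeRep_pos ℓ x)
  refine ⟨?_, fun hf0 h0 => hf0 ?_⟩
  · rw [NF_eq_prod]
    exact MDifferentiable.prod hfac
  · rw [NF_eq_prod, UpperHalfPlane.prod_eq_zero_iff hfac] at h0
    obtain ⟨x, -, hx⟩ := h0
    funext z
    have := congrFun hx ((heckeRep ℓ x)⁻¹ • z)
    simpa using this

end Fermat.Agent.ES.Hecke.MD
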