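import Fermat.Agent.ES.Hecke.Interface

/-!
# ES / Hecke / HK-KUM : Kum-compatibility of `N_ℓ` with `tau` (`Stmt_NKum`)
-/

set_option autoImplicit false

namespace Fermat.Agent.ES.Hecke.KU

open UpperHalfPlane CongruenceSubgroup
open scoped MatrixGroups Manifold
open ModularCurve (coeffMap qExpand)
open Fermat.Agent.S24 (Qbar FF funAlg iota)
open Fermat.Agent.S24.QX (qExpHom cmI Nice qL Rep scale)
open Fermat.Agent.ES.Mid (GQ gal Kum CongOne Growth tau)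
open Fermat.Agent.ES.Hecke
attribute [local instance] Fermat.Agent.S24.algQbarComplex

theorem NF_pow_mul (ℓ : ℕ) [NeZero ℓ] (m : ℕ) (a t : ℍ → ℂ) (z : ℍ) :
    NF ℓ a z ^ m * NF ℓ t z = NF ℓ (fun w => a w ^ m * t w) z := by
  unfold NF
  rw [← Finset.prod_pow, ← Finset.prod_mul_distrib]

theorem exists_prim (ℓ : ℕ) [NeZero ℓ] : ∃ ζ : Qbar, IsPrimitiveRoot ζ ℓ :=
  HasEnoughRootsOfUnity.exists_primitiveRoot Qbar ℓ

theorem nKum (hMem : Stmt_NMem) (hMul : Stmt_NKMul) (hD : Stmt_NFMDiff) (hC : Stmt_NFChar) :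
    Stmt_NKum := by
  intro N _ ℓ _ hℓN m _ u v χ hv hK
  obtain ⟨a, b, θ₁, θ₂, ha, hb, ha0, hb0, hθ₂, hu, hpow, hchar⟩ := hK
  obtain ⟨t11, t12, ht12, hf1, hs1⟩ := hMem N ℓ ℓ.2 hℓN θ₁
  obtain ⟨t21, t22, ht22, hf2, hs2⟩ := hMem N ℓ ℓ.2 hℓN θ₂
  obtain ⟨-, hmul, -, -, hne⟩ := hMul ℓ Qbar (exists_prim ℓ)
  have hinj := Fermat.Agent.S24.QX.qExpHom_injective N
  have hq : ∀ t : funAlg N, t ≠ 0 → (qExpHom N t : LaurentSeries Qbar) ≠ 0 := by
    intro t ht h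
    apply ht
    apply hinj
    rw [map_zero]
    exact Subtype.ext h
  have hu' : (u : LaurentSeries Qbar) * (qExpHom N θ₂ : LaurentSeries Qbar)
      = (qExpHom N θ₁ : LaurentSeries Qbar) := by
    have := congrArg (fun w : FF N => (w : LaurentSeries Qbar)) hu
    simpa using this
  have hNK : NK ℓ Qbar (u : LaurentSeries Qbar) * NK ℓ Qbar (qExpHom N θ₂ : LaurentSeries Qbar)
      = NK ℓ Qbar (qExpHom N θ₁ : LaurentSeries Qbar) := by
    rw [← hmul, hu']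
  have ht21 : (qExpHom N t21 : LaurentSeries Qbar) ≠ 0 := by
    rw [← hs2]
    exact mul_ne_zero (hne _ (hq θ₂ hθ₂)) (hq t22 ht22)
  refine ⟨NF ℓ a, NF ℓ b, t11 * t22, t21 * t12, (hD ℓ a ha).1, (hD ℓ b hb).1,
    (hD ℓ a ha).2 ha0, (hD ℓ b hb).2 hb0, ?_, ?_, ?_, hC N ℓ hℓN m χ a b hchar⟩
  · intro h
    have h1 : (qExpHom N (t21 * t12) : LaurentSeries Qbar) = 0 := by rw [h, map_zero]; rfl
    rw [map_mul] at h1
    exact mul_ne_zero ht21 (hq t12 ht12) h1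
  · apply Subtype.ext
    rw [map_mul, map_mul]
    show (v : LaurentSeries Qbar) * ((qExpHom N t21 : LaurentSeries Qbar) *
      (qExpHom N t12 : LaurentSeries Qbar)) = (qExpHom N t11 : LaurentSeries Qbar) *
      (qExpHom N t22 : LaurentSeries Qbar)
    rw [hv, ← hs2, ← hs1, ← hNK]
    ring
  · intro z
    have h1 : ((t21 * t12 : funAlg N) : ℍ → ℂ) z = (t21 : ℍ → ℂ) z * (t12 : ℍ → ℂ) z := rfl
    have h2 : ((t11 * t22 : funAlg N) : ℍ → ℂ) z = (t11 : ℍ → ℂ) z * (t22 : ℍ → ℂ) z := rfl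
    rw [h1, h2, ← hf1 z, ← hf2 z]
    have h3 : NF ℓ a z ^ m * NF ℓ (θ₂ : ℍ → ℂ) z = NF ℓ b z ^ m * NF ℓ (θ₁ : ℍ → ℂ) z := by
      rw [NF_pow_mul, NF_pow_mul]
      congr 1
      funext w
      exact hpow w
    linear_combination ((t22 : ℍ → ℂ) z * (t12 : ℍ → ℂ) z) * h3

end Fermat.Agent.ES.Hecke.KU
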