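import Fermat.Agent.ES.Hecke.Interface
import Fermat.Agent.S24.FunAlgProps
import Fermat.Agent.S24.FunAlgInv

/-!
# ES / Hecke / HK-MEM : `N_ℓ` preserves `F_N`
-/

set_option autoImplicit false

namespace Fermat.Agent.ES.Hecke

open UpperHalfPlane CongruenceSubgroup
open scoped MatrixGroups Manifold
open ModularCurve (coeffMap qExpand)
open Fermat.Agent.S24 (Qbar FF funAlg iota)
open Fermat.Agent.S24.QX (qExpHom cmI Nice qL Rep scale)
open Fermat.Agent.ES.Mid (GQ gal Kum CongOne Growth tau)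
attribute [local instance] Fermat.Agent.S24.algQbarComplex

namespace MEM

theorem exists_prim (ℓ : ℕ) [NeZero ℓ] : ∃ ζ : Qbar, IsPrimitiveRoot ζ ℓ :=
  HasEnoughRootsOfUnity.exists_primitiveRoot Qbar ℓ

theorem NF_one (ℓ : ℕ) [NeZero ℓ] : NF ℓ (fun _ => (1 : ℂ)) = fun _ => 1 := by
  funext z
  simp [NF]

/-- every element of `F_N` is a quotient of `q`-expansions. -/
theorem frac (N : ℕ) [NeZero N] (f : FF N) :
    ∃ a b : funAlg N, b ≠ 0 ∧ f * qExpHom N b = qExpHom N a := by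
  obtain ⟨r, hr, s, hs, hf⟩ :=
    IntermediateField.mem_adjoin_iff_div.mp (Fermat.Agent.S24.QX.modularFunctionFieldBar_le N f.2)
  obtain ⟨a, ha⟩ := Fermat.Agent.S24.QX.exists_qExpFun_eq N hr
  obtain ⟨b, hb⟩ := Fermat.Agent.S24.QX.exists_qExpFun_eq N hs
  by_cases hs0 : s = 0
  · refine ⟨0, 1, one_ne_zero, ?_⟩
    have hf0 : f = 0 := Subtype.ext (by rw [hf, hs0, div_zero]; rfl)
    rw [hf0, zero_mul, map_zero]
  · refine ⟨a, b, ?_, ?_⟩
    · rintro rfl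
      apply hs0
      rw [← hb]
      exact congrArg Subtype.val (map_zero (qExpHom N))
    · apply Subtype.ext
      show (f : LaurentSeries Qbar) * Fermat.Agent.S24.QX.qExpFun N b
        = Fermat.Agent.S24.QX.qExpFun N a
      rw [ha, hb, hf, div_mul_cancel₀ _ hs0]

end MEM

open MEM in
theorem nMem (hI : Mid.Stmt_InvRat) (hR : Stmt_RepNF) (hM : Stmt_NKMap) (hD : Stmt_NFMDiff)
    (hC : Stmt_NFChar) (hG : Stmt_NFGrowth) : Stmt_NMem := by
  intro N _ ℓ _ hℓ hN θ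
  have hmd : MDiff ((θ : funAlg N) : ℍ → ℂ) := Fermat.Agent.S24.funAlg_mdiff θ.2
  refine hI N (NF ℓ (θ : ℍ → ℂ)) (NK ℓ Qbar (qExpHom N θ : LaurentSeries Qbar))
    (hD ℓ _ hmd).1 ?_ (hG N ℓ hℓ hN θ) ?_
  · intro γ hγ z
    have h1 := @hC N _ ⟨ℓ, hℓ⟩ ‹NeZero ℓ› hN 1 _ 0 (θ : ℍ → ℂ) (fun _ => 1) (by
      intro γ z
      rw [Fermat.Agent.S24.funAlg_invariant θ.2 _ γ.2]
      simp) ⟨γ, hγ⟩ z
    have h2 : NF ℓ (fun _ : ℍ => (1 : ℂ)) = fun _ => 1 := NF_one ℓ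
    simp only [map_zero, AddMonoidHom.zero_apply, AddChar.map_zero_eq_one, one_mul] at h1
    change NF ℓ (θ : ℍ → ℂ) (γ • z) * NF ℓ (fun _ : ℍ => (1 : ℂ)) z
      = NF ℓ (θ : ℍ → ℂ) z * NF ℓ (fun _ : ℍ => (1 : ℂ)) (γ • z) at h1
    rw [h2] at h1
    simpa using h1
  · have h1 := (hM ℓ Qbar ℂ (iota : Qbar →+* ℂ) (exists_prim ℓ)
      (qExpHom N θ : LaurentSeries Qbar)).2
    show Rep (coeffMap (iota : Qbar →+* ℂ) (NK ℓ Qbar (qExpHom N θ : LaurentSeries Qbar))) _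
    rw [h1]
    exact hR ℓ _ _ (Fermat.Agent.S24.QX.qExpFun_rep N θ)

open MEM in
theorem nFF (h : Stmt_NMem) (hMul : Stmt_NKMul) : Stmt_NFF := by
  intro N _ ℓ _ hℓ hN u
  obtain ⟨-, hmul, -, -, hne⟩ := hMul ℓ Qbar (exists_prim ℓ)
  set FB := ModularCurve.modularFunctionFieldBar N with hFB
  -- `N_ℓ` of a `q`-expansion lies in `F_N`
  have key : ∀ θ : funAlg N, NK ℓ Qbar (qExpHom N θ : LaurentSeries Qbar) ∈ FB := by
    intro θ
    obtain ⟨θ₁, θ₂, h2, -, h3⟩ := h N ℓ hℓ hN θ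
    have h20 : (qExpHom N θ₂ : LaurentSeries Qbar) ≠ 0 := by
      intro h0
      exact h2 (Fermat.Agent.S24.QX.qExpHom_injective N (Subtype.ext (by rw [h0, map_zero]; rfl)))
    rw [eq_div_of_mul_eq h20 h3]
    exact div_mem (qExpHom N θ₁).2 (qExpHom N θ₂).2
  obtain ⟨a, b, hb, hab⟩ := frac N u
  have hb0 : (qExpHom N b : LaurentSeries Qbar) ≠ 0 := by
    intro h0
    exact hb (Fermat.Agent.S24.QX.qExpHom_injective N (Subtype.ext (by rw [h0, map_zero]; rfl)))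
  have h1 : (u : LaurentSeries Qbar) * (qExpHom N b : LaurentSeries Qbar)
      = (qExpHom N a : LaurentSeries Qbar) := congrArg Subtype.val hab
  have h2 : NK ℓ Qbar (u : LaurentSeries Qbar) * NK ℓ Qbar (qExpHom N b : LaurentSeries Qbar)
      = NK ℓ Qbar (qExpHom N a : LaurentSeries Qbar) := by rw [← hmul, h1]
  rw [eq_div_of_mul_eq (hne _ hb0) h2]
  exact div_mem (key a) (key b)

end Fermat.Agent.ES.Hecke
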