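import Fermat.Agent.ES.Hecke.Interface

/-!
# ES / Hecke : (SER-CONG) integrality and reduction of the norm part
-/

set_option autoImplicit false

namespace Fermat.Agent.ES.Hecke.NC

open ModularCurve (coeffMap qExpand)
open Fermat.Agent.S24 (Qbar)

section Generic

variable {R S : Type*} [CommRing R] [CommRing S] (φ : R →+* S)

theorem coeffMap_twist (ζ : Rˣ) (x : LaurentSeries R) :
    coeffMap φ (twist ζ x) = twist (Units.map (φ : R →* S) ζ) (coeffMap φ x) := by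
  ext n
  rw [ModularCurve.coeffMap_coeff, twist_coeff, twist_coeff, ModularCurve.coeffMap_coeff, map_mul,
    ← map_zpow]
  rfl

theorem coeffMap_Uop (ℓ : ℕ) [NeZero ℓ] (x : LaurentSeries R) :
    coeffMap φ (Uop ℓ x) = Uop ℓ (coeffMap φ x) := by
  ext n
  rfl

theorem coeffMap_prod_twist {ι : Type*} [Fintype ι] (Z : ι → Rˣ) (x : LaurentSeries R) :
    coeffMap φ (∏ i, twist (Z i) x)
      = ∏ i, twist (Units.map (φ : R →* S) (Z i)) (coeffMap φ x) := by
  rw [map_prod]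
  exact Finset.prod_congr rfl fun i _ => coeffMap_twist φ (Z i) x

theorem coeffMap_Nm (ℓ : ℕ) [NeZero ℓ] {ι : Type*} [Fintype ι] (Z : ι → Rˣ)
    (x : LaurentSeries R) :
    coeffMap φ (Nm ℓ Z x) = Nm ℓ (fun i => Units.map (φ : R →* S) (Z i)) (coeffMap φ x) := by
  unfold Nm
  rw [coeffMap_Uop, coeffMap_prod_twist]

theorem twist_one (x : LaurentSeries R) : twist (1 : Rˣ) x = x := by
  ext n
  simp

theorem coeffMap_inj (hφ : Function.Injective φ) : Function.Injective (coeffMap φ) := by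
  intro x y h
  ext k
  apply hφ
  rw [← ModularCurve.coeffMap_coeff, ← ModularCurve.coeffMap_coeff, h]

end Generic

theorem mem_of_pow_eq_one (A : ValuationSubring Qbar) {m : ℕ} (hm : 0 < m) {ζ : Qbar}
    (hζ : ζ ^ m = 1) : ζ ∈ A := by
  rw [← ValuationSubring.valuation_le_one_iff]
  have h1 : A.valuation ζ ^ m = 1 := by rw [← map_pow, hζ, map_one]
  exact ((pow_eq_one_iff.mp h1).resolve_right hm.ne').le

/-- the roots of unity as units of `A` -/
noncomputable def ZA (ℓ : ℕ) [NeZero ℓ] (A : ValuationSubring Qbar) (ζ : rootsOfUnity ℓ Qbar) : Aˣ where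
  val := ⟨((ζ : Qbarˣ) : Qbar), mem_of_pow_eq_one A (Nat.pos_of_ne_zero (NeZero.ne ℓ)) (by
    have := (mem_rootsOfUnity _ _).mp ζ.2
    rw [← Units.val_pow_eq_pow_val, this, Units.val_one])⟩
  inv := ⟨(((ζ : Qbarˣ)⁻¹ : Qbarˣ) : Qbar), mem_of_pow_eq_one A (Nat.pos_of_ne_zero (NeZero.ne ℓ)) (by
    have := (mem_rootsOfUnity _ _).mp ζ.2
    rw [← Units.val_pow_eq_pow_val, inv_pow, this, inv_one, Units.val_one])⟩
  val_inv := Subtype.ext (by simp)
  inv_val := Subtype.ext (by simp)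

theorem map_subtype_ZA (ℓ : ℕ) [NeZero ℓ] (A : ValuationSubring Qbar) (ζ : rootsOfUnity ℓ Qbar) :
    Units.map (A.subtype : A →* Qbar) (ZA ℓ A ζ) = (ζ : Qbarˣ) :=
  Units.ext rfl

theorem ZA_pow (ℓ : ℕ) [NeZero ℓ] (A : ValuationSubring Qbar) (ζ : rootsOfUnity ℓ Qbar) :
    ZA ℓ A ζ ^ ℓ = 1 := by
  apply Units.ext
  apply Subtype.ext
  have := (mem_rootsOfUnity _ _).mp ζ.2
  show (((ζ : Qbarˣ) : Qbar)) ^ ℓ = 1
  rw [← Units.val_pow_eq_pow_val, this, Units.val_one]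

theorem map_residue_ZA (ℓ : ℕ) [NeZero ℓ] (hℓ : ℓ.Prime) (A : ValuationSubring Qbar)
    (hA : A.LiesOverPrime ℓ) (ζ : rootsOfUnity ℓ Qbar) :
    Units.map (IsLocalRing.residue A : A →* IsLocalRing.ResidueField A) (ZA ℓ A ζ) = 1 := by
  have hchar : CharP (IsLocalRing.ResidueField A) ℓ := by
    rw [CharP.charP_iff_prime_eq_zero hℓ]
    have h1 : ((ℓ : A) : Qbar) ∈ A.nonunits := by
      have h0 : (ℓ : Qbar) ∈ A.nonunits := hA
      simpa using h0
    rw [ValuationSubring.coe_mem_nonunits_iff] at h1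
    have h2 := (IsLocalRing.residue_eq_zero_iff (ℓ : A)).mpr h1
    simpa using h2
  have : Fact ℓ.Prime := ⟨hℓ⟩
  apply Units.ext
  set z : IsLocalRing.ResidueField A := IsLocalRing.residue A (ZA ℓ A ζ : A) with hz
  have hzℓ : z ^ ℓ = 1 := by
    rw [hz, ← map_pow, ← Units.val_pow_eq_pow_val, ZA_pow, Units.val_one, map_one]
  have h3 : (z - 1) ^ ℓ = 0 := by
    rw [sub_pow_char, hzℓ, one_pow, sub_self]
  have h4 : z - 1 = 0 := pow_eq_zero_iff (NeZero.ne ℓ) |>.mp h3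
  show z = 1
  exact sub_eq_zero.mp h4

theorem exists_primitiveRoot (m : ℕ) (hm : 0 < m) : ∃ ζ : Qbar, IsPrimitiveRoot ζ m := by
  have : NeZero m := ⟨hm.ne'⟩
  have : NeZero (m : Qbar) := ⟨by exact_mod_cast hm.ne'⟩
  exact HasEnoughRootsOfUnity.exists_primitiveRoot Qbar m

theorem card_mu (ℓ : ℕ) [NeZero ℓ] : Fintype.card (rootsOfUnity ℓ Qbar) = ℓ := by
  obtain ⟨ζ, hζ⟩ := exists_primitiveRoot ℓ (Nat.pos_of_ne_zero (NeZero.ne ℓ))
  have h1 := hζ.card_rootsOfUnity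
  rw [← Nat.card_eq_fintype_card]
  exact h1

theorem nmCong (h : Stmt_QExpandNm) : Stmt_NmCong := by
  intro ℓ _ hℓ A hA y
  refine ⟨Nm ℓ (ZA ℓ A) y, ?_, ?_⟩
  · rw [coeffMap_Nm]
    unfold NmK
    congr 1
  · have h2 : qExpand A ℓ (Nm ℓ (ZA ℓ A) y) = ∏ ζ, twist (ZA ℓ A ζ) y := by
      apply coeffMap_inj A.subtype Subtype.val_injective
      rw [ModularCurve.coeffMap_qExpand, coeffMap_prod_twist, coeffMap_Nm]
      have e : (fun i => Units.map (A.subtype : A →* Qbar) (ZA ℓ A i))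
          = fun ζ : rootsOfUnity ℓ Qbar => (ζ : Qbarˣ) := funext fun ζ => map_subtype_ZA ℓ A ζ
      rw [e]
      have := h ℓ Qbar (exists_primitiveRoot ℓ (Nat.pos_of_ne_zero (NeZero.ne ℓ)))
        (coeffMap A.subtype y)
      unfold NmK at this
      rw [this]
      exact Finset.prod_congr rfl fun ζ _ => by rw [map_subtype_ZA]
    have h3 := congrArg (coeffMap (IsLocalRing.residue A)) h2
    rw [ModularCurve.coeffMap_qExpand, coeffMap_prod_twist] at h3
    rw [h3]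
    have h4 : ∀ ζ : rootsOfUnity ℓ Qbar,
        twist (Units.map (IsLocalRing.residue A : A →* IsLocalRing.ResidueField A) (ZA ℓ A ζ))
          (coeffMap (IsLocalRing.residue A) y) = coeffMap (IsLocalRing.residue A) y := by
      intro ζ
      rw [map_residue_ZA ℓ hℓ A hA, twist_one]
    rw [Finset.prod_congr rfl fun ζ _ => h4 ζ, Finset.prod_const, Finset.card_univ, card_mu]

end Fermat.Agent.ES.Hecke.NC
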