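/-
ES / Hecke, package HK-SERES (helper4): the Eichler-Shimura congruence for integral series.
-/
import Fermat.Agent.ES.Hecke.Interface
import Fermat.Prelude.Thm_ModularCurve_coeffMap_qExpand

set_option autoImplicit false

namespace Fermat.Agent.ES.Hecke.SE

open ModularCurve (coeffMap qExpand)
open Fermat.Agent.S24 (Qbar)
open Fermat.Agent.ES.Mid (GQ)
open Fermat.Agent.ES.Hecke

/-- `ℓ = 0` in the residue field of a valuation subring above `ℓ`. -/
theorem natCast_residue_eq_zero {ℓ : ℕ} {A : ValuationSubring Qbar} (hA : A.LiesOverPrime ℓ) :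
    (ℓ : IsLocalRing.ResidueField A) = 0 := by
  have h1 : ((ℓ : A) : Qbar) ∈ A.nonunits := by
    have h0 : (ℓ : Qbar) ∈ A.nonunits := hA
    simpa using h0
  have h2 : (ℓ : A) ∈ IsLocalRing.maximalIdeal A :=
    (ValuationSubring.coe_mem_nonunits_iff).mp h1
  have h3 := (IsLocalRing.residue_eq_zero_iff (ℓ : A)).mpr h2
  simpa using h3

theorem serES (h1 : Stmt_NmCong) (h2 : Stmt_FrobLift) (h3 : Stmt_FrobSeries) : Stmt_SerES := by
  intro ℓ _ hℓ A hA σ hσ y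
  obtain ⟨y1, hy1, hy1c⟩ := h2 ℓ A σ hσ y
  obtain ⟨s, hs, hsc⟩ := h2 ℓ A σ hσ y1
  obtain ⟨m, hm, hmr⟩ := h1 ℓ hℓ A hA y1
  have hℓ0 : (ℓ : IsLocalRing.ResidueField A) = 0 := natCast_residue_eq_zero hA
  set r := coeffMap (IsLocalRing.residue A) with hr
  have e1 : r y ^ ℓ = qExpand _ ℓ (r y1) := h3 _ ℓ hℓ hℓ0 (r y) (r y1) hy1c
  have e2 : r y1 ^ ℓ = qExpand _ ℓ (r s) := h3 _ ℓ hℓ hℓ0 (r y1) (r s) hsc
  have e3 : r m = r s := ModularCurve.qExpand_injective ℓ (hmr.trans e2)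
  refine ⟨qExpand A ℓ y1 * m, s, ?_, ?_, ?_, ?_⟩
  · rw [map_mul, ModularCurve.coeffMap_qExpand, hm, hy1, NK_eq]
  · rw [hs, hy1]
  · rw [map_mul, ModularCurve.coeffMap_qExpand, ← hr, e3, ← e1, mul_comm]
  · intro hy hs0
    apply hy
    ext n
    have h4 := hsc n
    have h5 := hy1c n
    rw [hs0, h5] at h4
    simp only [HahnSeries.coeff_zero] at h4 ⊢
    have h6 : (r y).coeff n ^ ℓ = 0 := pow_eq_zero_iff (hℓ.ne_zero) |>.mp h4.symm
    exact pow_eq_zero_iff (hℓ.ne_zero) |>.mp h6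

end Fermat.Agent.ES.Hecke.SE
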