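import Fermat.Agent.ES.Hecke.Interface

/-!
# ES / Hecke : API for `twist`, `Uop`, `Nm` on Laurent series
-/

set_option autoImplicit false

namespace Fermat.Agent.ES.Hecke

open ModularCurve (coeffMap qExpand)

section
variable {R S : Type*} [CommRing R] [CommRing S]

theorem support_twist (ζ : Rˣ) (x : LaurentSeries R) : (twist ζ x).support = x.support := by
  ext n
  simp only [HahnSeries.mem_support, twist_coeff, ne_eq]
  rw [Units.mul_left_eq_zero]

theorem twist_add (ζ : Rˣ) (x y : LaurentSeries R) : twist ζ (x + y) = twist ζ x + twist ζ y := by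
  ext n
  simp [add_mul]

theorem twist_zero (ζ : Rˣ) : twist ζ (0 : LaurentSeries R) = 0 := by
  ext n
  simp

theorem twist_single (ζ : Rˣ) (k : ℤ) (r : R) :
    twist ζ (HahnSeries.single k r) = HahnSeries.single k (r * ((ζ ^ k : Rˣ) : R)) := by
  ext n
  rw [twist_coeff]
  by_cases h : n = k
  · subst h; simp
  · simp [HahnSeries.coeff_single_of_ne h]

theorem twist_one' (ζ : Rˣ) : twist ζ (1 : LaurentSeries R) = 1 := by
  have : (1 : LaurentSeries R) = HahnSeries.single 0 1 := rfl
  rw [this, twist_single]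
  simp

theorem twist_C (ζ : Rˣ) (r : R) : twist ζ (HahnSeries.C r : LaurentSeries R) = HahnSeries.C r := by
  have : (HahnSeries.C r : LaurentSeries R) = HahnSeries.single 0 r := rfl
  rw [this, twist_single]
  simp

theorem twist_mul (ζ : Rˣ) (x y : LaurentSeries R) : twist ζ (x * y) = twist ζ x * twist ζ y := by
  ext n
  have e : Finset.antidiagonal x.isPWO_support (twist ζ y).isPWO_support n
      = Finset.antidiagonal x.isPWO_support y.isPWO_support n := by
    ext ij
    simp only [Finset.mem_antidiagonal, support_twist]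
  rw [twist_coeff, HahnSeries.coeff_mul,
    HahnSeries.coeff_mul_left' x.isPWO_support (support_twist ζ x).le, Finset.sum_mul, e]
  refine Finset.sum_congr rfl fun ij hij => ?_
  have hn : ij.1 + ij.2 = n := (Finset.mem_antidiagonal.mp hij).2.2
  rw [twist_coeff, twist_coeff, ← hn, zpow_add, Units.val_mul]
  ring

/-- `twist ζ` as a ring homomorphism. -/
noncomputable def twistHom (ζ : Rˣ) : LaurentSeries R →+* LaurentSeries R where
  toFun := twist ζ
  map_one' := twist_one' ζ
  map_mul' := twist_mul ζ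
  map_zero' := twist_zero ζ
  map_add' := twist_add ζ

@[simp] theorem twistHom_apply (ζ : Rˣ) (x : LaurentSeries R) : twistHom ζ x = twist ζ x := rfl

theorem twist_twist (ζ η : Rˣ) (x : LaurentSeries R) : twist ζ (twist η x) = twist (ζ * η) x := by
  ext n
  rw [twist_coeff, twist_coeff, twist_coeff, mul_zpow, Units.val_mul]
  ring

theorem twist_one_unit (x : LaurentSeries R) : twist (1 : Rˣ) x = x := by
  ext n
  simp

theorem twist_injective (ζ : Rˣ) : Function.Injective (twist ζ : LaurentSeries R → _) := by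
  intro x y h
  have := congrArg (twist ζ⁻¹) h
  rwa [twist_twist, twist_twist, inv_mul_cancel, twist_one_unit, twist_one_unit] at this

theorem twist_prod {ι : Type*} (s : Finset ι) (ζ : Rˣ) (f : ι → LaurentSeries R) :
    twist ζ (∏ i ∈ s, f i) = ∏ i ∈ s, twist ζ (f i) :=
  map_prod (twistHom ζ) f s

theorem coeffMap_coeff (φ : R →+* S) (x : LaurentSeries R) (n : ℤ) :
    (coeffMap φ x).coeff n = φ (x.coeff n) := rfl

theorem coeffMap_twist (φ : R →+* S) (ζ : Rˣ) (x : LaurentSeries R) :
    coeffMap φ (twist ζ x) = twist (Units.map (φ : R →* S) ζ) (coeffMap φ x) := by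
  ext n
  rw [coeffMap_coeff, twist_coeff, twist_coeff, coeffMap_coeff, map_mul, ← map_zpow]
  rfl

variable (ℓ : ℕ) [NeZero ℓ]

theorem Uop_add (x y : LaurentSeries R) : Uop ℓ (x + y) = Uop ℓ x + Uop ℓ y := by
  ext n
  simp

theorem Uop_qExpand (x : LaurentSeries R) : Uop ℓ (qExpand R ℓ x) = x := by
  ext n
  rw [Uop_coeff, ModularCurve.qExpand_coeff_mul]

theorem coeffMap_Uop (φ : R →+* S) (x : LaurentSeries R) :
    coeffMap φ (Uop ℓ x) = Uop ℓ (coeffMap φ x) := by
  ext n
  rfl

/-- a series supported on multiples of `ℓ` is `qExpand` of its `Uop`. -/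
theorem qExpand_Uop_of (x : LaurentSeries R) (h : ∀ n : ℤ, ¬ (ℓ : ℤ) ∣ n → x.coeff n = 0) :
    qExpand R ℓ (Uop ℓ x) = x := by
  ext n
  by_cases hn : (ℓ : ℤ) ∣ n
  · obtain ⟨k, rfl⟩ := hn
    rw [ModularCurve.qExpand_coeff_mul, Uop_coeff]
  · rw [ModularCurve.qExpand_coeff_of_not_dvd _ _ hn, h n hn]

theorem coeffMap_Nm {ι : Type*} [Fintype ι] (φ : R →+* S) (Z : ι → Rˣ) (x : LaurentSeries R) :
    coeffMap φ (Nm ℓ Z x) = Nm ℓ (fun i => Units.map (φ : R →* S) (Z i)) (coeffMap φ x) := by
  unfold Nm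
  rw [coeffMap_Uop, map_prod]
  congr 1
  exact Finset.prod_congr rfl fun i _ => coeffMap_twist φ (Z i) x

theorem coeffMap_Nser {ι : Type*} [Fintype ι] (φ : R →+* S) (Z : ι → Rˣ) (x : LaurentSeries R) :
    coeffMap φ (Nser ℓ Z x) = Nser ℓ (fun i => Units.map (φ : R →* S) (Z i)) (coeffMap φ x) := by
  unfold Nser
  rw [map_mul, ModularCurve.coeffMap_qExpand, coeffMap_Nm]

/-- reindexing -/
theorem Nm_comp_equiv {ι κ : Type*} [Fintype ι] [Fintype κ] (e : ι ≃ κ) (Z : κ → Rˣ)
    (x : LaurentSeries R) : Nm ℓ (fun i => Z (e i)) x = Nm ℓ Z x := by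
  unfold Nm
  congr 1
  exact Equiv.prod_comp e (fun k => twist (Z k) x)

end

end Fermat.Agent.ES.Hecke
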